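import Fermat.Agent.EulerCubes.Param

/-!
# Integer solutions

The homogeneous forms, and the family `p = q = m + 3`, `r = 2 m + 5` of positive solutions, whose
ratio `x / v = r / (2 p)` takes infinitely many values.
-/

set_option autoImplicit false

namespace FA.EulerCubes

theorem sq_ne_neg_three {K : Type*} [Field K] [LinearOrder K] [IsStrictOrderedRing K] (w : K) :
    w ^ 2 ≠ -3 := fun h => by linarith [sq_nonneg w]

theorem integer_solution {x y u v : ℤ} (h : x ^ 3 + y ^ 3 = u ^ 3 + v ^ 3) (h₁ : x + y ≠ 0)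
    (h₂ : ¬(u = x ∧ v = y)) :
    ∃ (p q r : ℤ) (k : ℚ), r ≠ 0 ∧
      (x : ℚ) = k * ((r * (r ^ 3 - (p - 3 * q) * (p ^ 2 + 3 * q ^ 2)) : ℤ) : ℚ) ∧
      (y : ℚ) = k * ((r * ((p + 3 * q) * (p ^ 2 + 3 * q ^ 2) - r ^ 3) : ℤ) : ℚ) ∧
      (u : ℚ) = k * (((p + 3 * q) * r ^ 3 - (p ^ 2 + 3 * q ^ 2) ^ 2 : ℤ) : ℚ) ∧
      (v : ℚ) = k * (((p ^ 2 + 3 * q ^ 2) ^ 2 - (p - 3 * q) * r ^ 3 : ℤ) : ℚ) := by
  obtain ⟨-, -, e⟩ := param_spec (K := ℚ) (by norm_num) (by norm_num) sq_ne_neg_three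
    (P := ((x : ℚ), (y : ℚ), (u : ℚ), (v : ℚ)))
    (show (x : ℚ) ^ 3 + (y : ℚ) ^ 3 = (u : ℚ) ^ 3 + (v : ℚ) ^ 3 by exact_mod_cast h)
    ⟨fun e => h₁ (by simp only at e; exact_mod_cast e),
      fun e => h₂ (by simp only at e; exact_mod_cast e)⟩
  generalize eulerParam ((x : ℚ), (y : ℚ), (u : ℚ), (v : ℚ)) = Q at e
  obtain ⟨a, b, l⟩ := Q
  simp only [eulerPoint, normAB, Prod.mk.injEq] at e
  obtain ⟨ex, ey, eu, ev⟩ := e
  have ha : (a.den : ℚ) ≠ 0 := Nat.cast_ne_zero.2 a.den_nz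
  have hb : (b.den : ℚ) ≠ 0 := Nat.cast_ne_zero.2 b.den_nz
  set R : ℚ := (a.den : ℚ) * b.den with hR
  have hR0 : R ≠ 0 := mul_ne_zero ha hb
  have hp : ((a.num * b.den : ℤ) : ℚ) = a * R := by
    push_cast; rw [hR, ← Rat.mul_den_eq_num a]; ring
  have hq : ((b.num * a.den : ℤ) : ℚ) = b * R := by
    push_cast; rw [hR, ← Rat.mul_den_eq_num b]; ring
  have hr : ((a.den * b.den : ℤ) : ℚ) = R := by push_cast; rfl
  refine ⟨a.num * b.den, b.num * a.den, a.den * b.den, l / R ^ 4, ?_, ?_, ?_, ?_, ?_⟩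
  · exact mul_ne_zero (by exact_mod_cast a.den_nz) (by exact_mod_cast b.den_nz)
  all_goals
    simp only [Int.cast_mul, Int.cast_add, Int.cast_sub, Int.cast_pow, Int.cast_ofNat]
    simp only [← Int.cast_mul, hp, hq, hr]
    first | rw [← ex] | rw [← ey] | rw [← eu] | rw [← ev]
    field_simp

/-- A family of positive solutions. -/
def family (m : ℕ) : ℕ × ℕ × ℕ × ℕ :=
  ((2 * m + 5) * ((2 * m + 5) ^ 3 + 8 * (m + 3) ^ 3),
    (2 * m + 5) * (8 * m ^ 3 + 84 * m ^ 2 + 282 * m + 307),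
    4 * (m + 3) * (4 * m ^ 3 + 24 * m ^ 2 + 42 * m + 17),
    2 * (m + 3) * (8 * (m + 3) ^ 3 + (2 * m + 5) ^ 3))

theorem family_eq (m : ℕ) :
    (family m).1 ^ 3 + (family m).2.1 ^ 3 = (family m).2.2.1 ^ 3 + (family m).2.2.2 ^ 3 := by
  simp only [family]; ring

theorem family_ratio (m : ℕ) : 2 * (m + 3) * (family m).1 = (2 * m + 5) * (family m).2.2.2 := by
  simp only [family]; ring

theorem family_sum_ne (m : ℕ) :
    (family m).1 + (family m).2.1 ≠ (family m).2.2.1 + (family m).2.2.2 := by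
  intro h
  have e : (2 * m + 5) * (4 * (m + 3) ^ 2) * (6 * (m + 3)) =
      (2 * m + 5) * (2 * m + 5) ^ 2 * (6 * (m + 3)) := by
    simp only [family] at h
    ring_nf at h ⊢
    linarith
  have := Nat.eq_of_mul_eq_mul_left (by omega) (Nat.eq_of_mul_eq_mul_right (by omega) e)
  have h' : (2 * (m + 3)) ^ 2 = (2 * m + 5) ^ 2 := by rw [← this]; ring
  have := Nat.pow_left_injective two_ne_zero h'
  omega

theorem infinite_primitive :
    {q : ℕ × ℕ × ℕ × ℕ | (0 < q.1 ∧ 0 < q.2.1 ∧ 0 < q.2.2.1 ∧ 0 < q.2.2.2) ∧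
      q.1 ^ 3 + q.2.1 ^ 3 = q.2.2.1 ^ 3 + q.2.2.2 ^ 3 ∧
      ({q.1, q.2.1} : Set ℕ) ≠ {q.2.2.1, q.2.2.2} ∧
      Nat.gcd (Nat.gcd q.1 q.2.1) (Nat.gcd q.2.2.1 q.2.2.2) = 1}.Infinite := by
  intro hfin
  have key : ∀ m : ℕ, ∃ q : ℕ × ℕ × ℕ × ℕ, ((0 < q.1 ∧ 0 < q.2.1 ∧ 0 < q.2.2.1 ∧ 0 < q.2.2.2) ∧
      q.1 ^ 3 + q.2.1 ^ 3 = q.2.2.1 ^ 3 + q.2.2.2 ^ 3 ∧
      ({q.1, q.2.1} : Set ℕ) ≠ {q.2.2.1, q.2.2.2} ∧
      Nat.gcd (Nat.gcd q.1 q.2.1) (Nat.gcd q.2.2.1 q.2.2.2) = 1) ∧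
      2 * (m + 3) * q.1 = (2 * m + 5) * q.2.2.2 := by
    intro m
    have heq := family_eq m
    have hra := family_ratio m
    have hne := family_sum_ne m
    have hpos : 0 < (family m).1 ∧ 0 < (family m).2.1 ∧ 0 < (family m).2.2.1 ∧
        0 < (family m).2.2.2 := by simp only [family]; refine ⟨?_, ?_, ?_, ?_⟩ <;> positivity
    generalize family m = P at *
    obtain ⟨x, y, u, v⟩ := P
    simp only at heq hra hne hpos
    set g := Nat.gcd (Nat.gcd x y) (Nat.gcd u v) with hg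
    have g0 : 0 < g := Nat.gcd_pos_of_pos_left _ (Nat.gcd_pos_of_pos_left _ hpos.1)
    obtain ⟨x', ex⟩ : g ∣ x := (Nat.gcd_dvd_left _ _).trans (Nat.gcd_dvd_left _ _)
    obtain ⟨y', ey⟩ : g ∣ y := (Nat.gcd_dvd_left _ _).trans (Nat.gcd_dvd_right _ _)
    obtain ⟨u', eu⟩ : g ∣ u := (Nat.gcd_dvd_right _ _).trans (Nat.gcd_dvd_left _ _)
    obtain ⟨v', ev⟩ : g ∣ v := (Nat.gcd_dvd_right _ _).trans (Nat.gcd_dvd_right _ _)
    have hpos' : 0 < x' ∧ 0 < y' ∧ 0 < u' ∧ 0 < v' :=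
      ⟨Nat.pos_of_mul_pos_left (ex ▸ hpos.1), Nat.pos_of_mul_pos_left (ey ▸ hpos.2.1),
        Nat.pos_of_mul_pos_left (eu ▸ hpos.2.2.1), Nat.pos_of_mul_pos_left (ev ▸ hpos.2.2.2)⟩
    refine ⟨(x', y', u', v'), ⟨hpos', ?_, ?_, ?_⟩, ?_⟩
    · refine Nat.eq_of_mul_eq_mul_left (pow_pos g0 3) ?_
      rw [mul_add, mul_add, ← mul_pow, ← mul_pow, ← mul_pow, ← mul_pow, ← ex, ← ey, ← eu, ← ev]
      exact heq
    · intro h
      refine hne ?_
      rw [ex, ey, eu, ev, ← mul_add, ← mul_add]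
      congr 1
      rcases Set.pair_eq_pair_iff.1 h with ⟨a, b⟩ | ⟨a, b⟩ <;> simp only at a b <;> omega
    · have : g * Nat.gcd (Nat.gcd x' y') (Nat.gcd u' v') = g * 1 := by
        rw [← Nat.gcd_mul_left, ← Nat.gcd_mul_left, ← Nat.gcd_mul_left, ← ex, ← ey, ← eu, ← ev,
          mul_one]
      exact Nat.eq_of_mul_eq_mul_left g0 this
    · refine Nat.eq_of_mul_eq_mul_left g0 ?_
      rw [mul_left_comm, ← ex, mul_left_comm, ← ev]
      exact hra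
  choose f hf hr using key
  refine Set.infinite_of_injective_forall_mem (f := f) (fun m m' e => ?_) hf hfin
  have h₁ := hr m
  have h₂ := hr m'
  rw [e] at h₁
  have hx := (hf m').1.1
  have hv := (hf m').1.2.2.2
  have : (2 * (m + 3)) * (2 * m' + 5) * ((f m').1 * (f m').2.2.2) =
      (2 * (m' + 3)) * (2 * m + 5) * ((f m').1 * (f m').2.2.2) := by
    calc _ = (2 * (m + 3) * (f m').1) * ((2 * m' + 5) * (f m').2.2.2) := by ring
      _ = ((2 * m + 5) * (f m').2.2.2) * (2 * (m' + 3) * (f m').1) := by rw [h₁, h₂]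
      _ = _ := by ring
  have := Nat.eq_of_mul_eq_mul_right (Nat.mul_pos hx hv) this
  ring_nf at this
  omega

end FA.EulerCubes
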