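import Mathlib.Tactic

/-!
# Euler's parametrisation of `x³ + y³ = u³ + v³`

With `2 X = x + y`, `2 Y = y - x`, `2 U = u + v`, `2 V = v - u` the equation is
`X (X² + 3 Y²) = U (U² + 3 V²)`; put `U + V √-3 = (a + b √-3) (X + Y √-3)`.
-/

set_option autoImplicit false

noncomputable section

namespace FA.EulerCubes

variable {K : Type*} [Field K]

/-- `a² + 3 b²`. -/
def normAB (a b : K) : K := a ^ 2 + 3 * b ^ 2

/-- Euler's point. -/
def eulerPoint (q : K × K × K) : K × K × K × K :=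
  (q.2.2 * (1 - (q.1 - 3 * q.2.1) * normAB q.1 q.2.1),
    q.2.2 * ((q.1 + 3 * q.2.1) * normAB q.1 q.2.1 - 1),
    q.2.2 * (q.1 + 3 * q.2.1 - normAB q.1 q.2.1 ^ 2),
    q.2.2 * (normAB q.1 q.2.1 ^ 2 - (q.1 - 3 * q.2.1)))

/-- Twice the real part of the first pair, and so on: the parameters of a point. -/
def eulerParam (P : K × K × K × K) : K × K × K :=
  let X := (P.1 + P.2.1) / 2
  let Y := (P.2.1 - P.1) / 2
  let U := (P.2.2.1 + P.2.2.2) / 2
  let V := (P.2.2.2 - P.2.2.1) / 2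
  let a := (X * U + 3 * Y * V) / (X ^ 2 + 3 * Y ^ 2)
  let b := (X * V - Y * U) / (X ^ 2 + 3 * Y ^ 2)
  (a, b, X / (3 * b * normAB a b))

/-- The surface. -/
def OnSurface (P : K × K × K × K) : Prop :=
  P.1 ^ 3 + P.2.1 ^ 3 = P.2.2.1 ^ 3 + P.2.2.2 ^ 3

/-- Neither trivial solution. -/
def Proper (P : K × K × K × K) : Prop :=
  P.1 + P.2.1 ≠ 0 ∧ ¬(P.2.2.1 = P.1 ∧ P.2.2.2 = P.2.1)

theorem onSurface_eulerPoint (q : K × K × K) : OnSurface (eulerPoint q) := by
  simp only [OnSurface, eulerPoint, normAB]; ring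

variable (h2 : (2 : K) ≠ 0) (h3 : (3 : K) ≠ 0) (hsq : ∀ w : K, w ^ 2 ≠ -3)

include hsq in
theorem normAB_ne_zero {a b : K} (h : a ≠ 0 ∨ b ≠ 0) : normAB a b ≠ 0 := by
  intro e
  simp only [normAB] at e
  by_cases hb : b = 0
  · subst hb
    exact h.elim (fun ha => ha (pow_eq_zero_iff two_ne_zero |>.1 (by linear_combination e)))
      fun hb => hb rfl
  · exact hsq (a / b) (by rw [div_pow, div_eq_iff (pow_ne_zero _ hb)]; linear_combination e)

include hsq in
theorem add_eq_zero_of_eq {U V : K} (h : U * (U ^ 2 + 3 * V ^ 2) = 0) : U = 0 := by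
  by_contra hU
  exact normAB_ne_zero hsq (Or.inl hU) ((mul_eq_zero.1 h).resolve_left hU)

include hsq in
theorem eq_one_of_cube {a : K} (h : a ^ 3 = 1) : a = 1 := by
  by_contra ha
  refine hsq (2 * a + 1) ?_
  have h' : a ^ 2 + a + 1 = 0 := (mul_eq_zero.1 (show (a - 1) * (a ^ 2 + a + 1) = 0 by
    linear_combination h)).resolve_left (sub_ne_zero.2 ha)
  linear_combination 4 * h'

include h2 h3 hsq in
theorem param_spec {P : K × K × K × K} (hP : OnSurface P) (hp : Proper P) :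
    (eulerParam P).2.1 ≠ 0 ∧ (eulerParam P).2.2 ≠ 0 ∧ eulerPoint (eulerParam P) = P := by
  obtain ⟨x, y, u, v⟩ := P
  obtain ⟨hxy, hne⟩ := hp
  simp only [OnSurface] at hP
  obtain ⟨X, rfl⟩ : ∃ X, y = 2 * X - x := ⟨(x + y) / 2, by field_simp; ring⟩
  obtain ⟨U, rfl⟩ : ∃ U, v = 2 * U - u := ⟨(u + v) / 2, by field_simp; ring⟩
  obtain ⟨Y, rfl⟩ : ∃ Y, x = X - Y := ⟨X - x, by ring⟩
  obtain ⟨V, rfl⟩ : ∃ V, u = U - V := ⟨U - u, by ring⟩
  simp only at hxy hne ⊢
  have hX : X ≠ 0 := fun e => hxy (by rw [e]; ring)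
  have hD : X ^ 2 + 3 * Y ^ 2 ≠ 0 := normAB_ne_zero hsq (Or.inl hX)
  set a := (X * U + 3 * Y * V) / (X ^ 2 + 3 * Y ^ 2) with ha
  set b := (X * V - Y * U) / (X ^ 2 + 3 * Y ^ 2) with hb
  have hU : U = a * X - 3 * b * Y := by rw [ha, hb]; field_simp; ring
  have hV : V = b * X + a * Y := by
    rw [ha, hb, div_mul_eq_mul_div, div_mul_eq_mul_div, ← add_div, eq_div_iff hD]; ring
  have hN : X = U * normAB a b := mul_left_cancel₀ (mul_ne_zero h2 hD) (by
    simp only [normAB]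
    have e : U ^ 2 + 3 * V ^ 2 = (a ^ 2 + 3 * b ^ 2) * (X ^ 2 + 3 * Y ^ 2) := by
      rw [hU, hV]; ring
    linear_combination hP + 2 * U * e)
  have hb0 : b ≠ 0 := fun e => by
    rw [e, mul_zero, zero_mul, sub_zero] at hU
    rw [e, zero_mul, zero_add] at hV
    have h1 := hN
    simp only [normAB, e] at h1
    have : a = 1 := eq_one_of_cube hsq (mul_right_cancel₀ hX
      (by rw [hU] at h1; linear_combination -h1))
    rw [this, one_mul] at hU hV
    exact hne ⟨by rw [hU, hV], by rw [hU, hV]⟩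
  have hN0 : normAB a b ≠ 0 := normAB_ne_zero hsq (Or.inr hb0)
  have he : eulerParam (X - Y, 2 * X - (X - Y), U - V, 2 * U - (U - V)) =
      (a, b, X / (3 * b * normAB a b)) := by
    have e₁ : (X - Y + (2 * X - (X - Y))) / 2 = X := by field_simp; ring
    have e₂ : (2 * X - (X - Y) - (X - Y)) / 2 = Y := by field_simp; ring
    have e₃ : (U - V + (2 * U - (U - V))) / 2 = U := by field_simp; ring
    have e₄ : (2 * U - (U - V) - (U - V)) / 2 = V := by field_simp; ring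
    simp only [eulerParam, e₁, e₂, e₃, e₄, ← ha, ← hb]
  rw [he]
  refine ⟨hb0, div_ne_zero hX (mul_ne_zero (mul_ne_zero h3 hb0) hN0), ?_⟩
  obtain ⟨l, hl⟩ : ∃ l, l = X / (3 * b * normAB a b) := ⟨_, rfl⟩
  rw [← hl]
  have k₁ : X = 3 * b * normAB a b * l := by rw [hl]; field_simp
  have k₂ : U = 3 * b * l := mul_right_cancel₀ hN0 (by rw [← hN]; linear_combination k₁)
  have k₃ : Y = (a * normAB a b - 1) * l := mul_left_cancel₀ (mul_ne_zero h3 hb0)
    (by linear_combination hU - k₂ + a * k₁)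
  have k₄ : V = (normAB a b ^ 2 - a) * l := by
    rw [hV, k₁, k₃]; simp only [normAB]; ring
  simp only [eulerPoint, Prod.mk.injEq]
  refine ⟨?_, ?_, ?_, ?_⟩
  · linear_combination k₃ - k₁
  · linear_combination -k₃ - k₁
  · linear_combination k₄ - k₂
  · linear_combination -k₄ - k₂

include h2 h3 hsq in
theorem proper_eulerPoint {q : K × K × K} (hb : q.2.1 ≠ 0) (hl : q.2.2 ≠ 0) :
    Proper (eulerPoint q) := by
  obtain ⟨a, b, l⟩ := q
  have hN : normAB a b ≠ 0 := normAB_ne_zero hsq (Or.inr hb)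
  refine ⟨fun e => ?_, fun ⟨e₁, e₂⟩ => hb ?_⟩
  · simp only [eulerPoint] at e
    exact mul_ne_zero (mul_ne_zero (mul_ne_zero (mul_ne_zero h2 h3) hb) hN) hl
      (by linear_combination e)
  · simp only [eulerPoint] at e₁ e₂
    have hN1 : normAB a b = 1 := mul_left_cancel₀
      (mul_ne_zero (mul_ne_zero (mul_ne_zero h2 h3) hb) hl) (by linear_combination -e₁ - e₂)
    have ha : a = 1 := mul_left_cancel₀ (mul_ne_zero (mul_ne_zero h2 h2) hl) (by
      rw [hN1] at e₁ e₂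
      linear_combination e₁ - e₂)
    rw [ha, normAB, one_pow] at hN1
    exact pow_eq_zero_iff two_ne_zero |>.1 (mul_left_cancel₀ h3 (by linear_combination hN1))

include h2 h3 hsq in
theorem eulerParam_eulerPoint {q : K × K × K} (hb : q.2.1 ≠ 0) (hl : q.2.2 ≠ 0) :
    eulerParam (eulerPoint q) = q := by
  obtain ⟨a, b, l⟩ := q
  simp only at hb hl
  have hN : normAB a b ≠ 0 := normAB_ne_zero hsq (Or.inr hb)
  simp only [eulerParam, eulerPoint]
  have e₁ : (l * (1 - (a - 3 * b) * normAB a b) + l * ((a + 3 * b) * normAB a b - 1)) / 2 =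
      3 * b * normAB a b * l := by field_simp; ring
  have e₂ : (l * ((a + 3 * b) * normAB a b - 1) - l * (1 - (a - 3 * b) * normAB a b)) / 2 =
      (a * normAB a b - 1) * l := by field_simp; ring
  have e₃ : (l * (a + 3 * b - normAB a b ^ 2) + l * (normAB a b ^ 2 - (a - 3 * b))) / 2 =
      3 * b * l := by field_simp; ring
  have e₄ : (l * (normAB a b ^ 2 - (a - 3 * b)) - l * (a + 3 * b - normAB a b ^ 2)) / 2 =
      (normAB a b ^ 2 - a) * l := by field_simp; ring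
  rw [e₁, e₂, e₃, e₄]
  have hX : 3 * b * normAB a b * l ≠ 0 := mul_ne_zero (mul_ne_zero (mul_ne_zero h3 hb) hN) hl
  have hD : (3 * b * normAB a b * l) ^ 2 + 3 * ((a * normAB a b - 1) * l) ^ 2 ≠ 0 :=
    normAB_ne_zero hsq (Or.inl hX)
  have ea : (3 * b * normAB a b * l * (3 * b * l) + 3 * ((a * normAB a b - 1) * l) *
      ((normAB a b ^ 2 - a) * l)) / ((3 * b * normAB a b * l) ^ 2 +
        3 * ((a * normAB a b - 1) * l) ^ 2) = a := by
    rw [div_eq_iff hD]; simp only [normAB]; ring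
  have eb : (3 * b * normAB a b * l * ((normAB a b ^ 2 - a) * l) -
      (a * normAB a b - 1) * l * (3 * b * l)) / ((3 * b * normAB a b * l) ^ 2 +
        3 * ((a * normAB a b - 1) * l) ^ 2) = b := by
    rw [div_eq_iff hD]; simp only [normAB]; ring
  rw [ea, eb, mul_div_cancel_left₀ l (mul_ne_zero (mul_ne_zero h3 hb) hN)]

include h2 h3 hsq in
theorem complete (x y u v : K) : x ^ 3 + y ^ 3 = u ^ 3 + v ^ 3 ↔
    (u = x ∧ v = y) ∨ (x + y = 0 ∧ u + v = 0) ∨ ∃ q : K × K × K, eulerPoint q = (x, y, u, v) := by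
  constructor
  · intro h
    by_cases h₁ : u = x ∧ v = y
    · exact Or.inl h₁
    by_cases h₂ : x + y = 0
    · refine Or.inr (Or.inl ⟨h₂, ?_⟩)
      have := add_eq_zero_of_eq hsq (U := u + v) (V := v - u) (by
        rw [eq_neg_of_add_eq_zero_left h₂] at h
        linear_combination -4 * h)
      exact this
    exact Or.inr (Or.inr ⟨_, (param_spec h2 h3 hsq (P := (x, y, u, v)) h ⟨h₂, h₁⟩).2.2⟩)
  · rintro (⟨rfl, rfl⟩ | ⟨h₁, h₂⟩ | ⟨q, hq⟩)
    · rfl
    · rw [eq_neg_of_add_eq_zero_left h₁, eq_neg_of_add_eq_zero_left h₂]; ring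
    · have := onSurface_eulerPoint q
      rwa [hq] at this

include h2 h3 hsq in
theorem bijOn : Set.BijOn eulerPoint {q : K × K × K | q.2.1 ≠ 0 ∧ q.2.2 ≠ 0}
    {P : K × K × K × K | OnSurface P ∧ Proper P} :=
  ⟨fun q hq => ⟨onSurface_eulerPoint q, proper_eulerPoint h2 h3 hsq hq.1 hq.2⟩,
    fun q hq q' hq' e => by
      rw [← eulerParam_eulerPoint h2 h3 hsq hq.1 hq.2, e,
        eulerParam_eulerPoint h2 h3 hsq hq'.1 hq'.2],
    fun P hP =>
      have h := param_spec h2 h3 hsq hP.1 hP.2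
      ⟨eulerParam P, ⟨h.1, h.2.1⟩, h.2.2⟩⟩

end FA.EulerCubes
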